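import Mathlib
import Fermat.Agent.LT.T7.H561.SpecUpTop

/-!
# Row LT, tower T7, leaf T7.L2.2.S `StableC561` (helper812), part 1: the closure of an ideal

OFF-MAIN.  ADDITIVE.  Every proof is complete, nothing assumed.

Local statements at a finite place `v` of a number field `K`:

* `mem_idealClosure_iff812` : for `z₀ ∈ 𝔫` of maximal valuation at `v`, the closure
  `A0.idealClosure 𝔫 v` is the closed ball `{y | |y|_v ≤ |z₀|_v}`;
* `mem_idealClosure_of_colon812` : for non-zero ideals `𝔑₁ ≤ 𝔑₀`, an element `y` of `K_v` lies in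
  the closure of `𝔑₀` as soon as `c y` lies in the closure of `𝔑₁` for every `c` of the colon
  ideal `(𝔑₁ : 𝔑₀)`;  `colon_mul_mem_idealClosure812` is the converse.
-/

set_option autoImplicit false

open IsDedekindDomain NumberField

noncomputable section

namespace Fermat.Agent.LT.T7.H812

open Fermat.Agent.LT.H556.A0

variable {K : Type} [Field K] [NumberField K]

/-- The map `𝓞 K → K_v` of `A0.idealClosure`. -/
def iota812 (v : HeightOneSpectrum (𝓞 K)) : 𝓞 K →+* v.adicCompletion K :=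
  (algebraMap K (v.adicCompletion K)).comp (algebraMap (𝓞 K) K)

theorem iota812_apply (v : HeightOneSpectrum (𝓞 K)) (x : 𝓞 K) :
    iota812 v x = algebraMap K (v.adicCompletion K) (algebraMap (𝓞 K) K x) := rfl

theorem idealClosure_eq812 (𝔫 : Ideal (𝓞 K)) (v : HeightOneSpectrum (𝓞 K)) :
    idealClosure 𝔫 v = closure ((iota812 v) '' (𝔫 : Set (𝓞 K))) := rfl

theorem val_iota812 (v : HeightOneSpectrum (𝓞 K)) (x : 𝓞 K) :
    Valued.v (iota812 v x) = v.intValuation x := by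
  exact (HeightOneSpectrum.valuedAdicCompletion_eq_valuation' v _).trans
    (HeightOneSpectrum.valuation_of_algebraMap v x)

theorem val_iota_ne_zero812 (v : HeightOneSpectrum (𝓞 K)) {x : 𝓞 K} (hx : x ≠ 0) :
    Valued.v (iota812 v x) ≠ 0 := by
  rw [val_iota812]
  exact v.intValuation_ne_zero x hx

theorem iota_mem_idealClosure812 (𝔫 : Ideal (𝓞 K)) (v : HeightOneSpectrum (𝓞 K)) {x : 𝓞 K}
    (hx : x ∈ 𝔫) : iota812 v x ∈ idealClosure 𝔫 v :=
  subset_closure ⟨x, hx, rfl⟩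

/-- The closed ball of radius `|a|_v`, `a ≠ 0`, is closed. -/
theorem isClosed_ball812 (v : HeightOneSpectrum (𝓞 K)) (a : v.adicCompletion K) (ha : a ≠ 0) :
    IsClosed {y : v.adicCompletion K | Valued.v y ≤ Valued.v a} := by
  have hcl : IsClosed ((v.adicCompletionIntegers K : Set (v.adicCompletion K))) :=
    Valued.isClosed_valuationSubring _
  have hc : Continuous (fun y : v.adicCompletion K => y * a⁻¹) :=
    continuous_id.mul continuous_const
  have hva : Valued.v a ≠ 0 := (Valuation.ne_zero_iff _).2 ha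
  have : {y : v.adicCompletion K | Valued.v y ≤ Valued.v a}
      = (fun y : v.adicCompletion K => y * a⁻¹) ⁻¹'
        ((v.adicCompletionIntegers K : Set (v.adicCompletion K))) := by
    ext y
    simp only [Set.mem_ofPred_eq, Set.mem_preimage, SetLike.mem_coe,
      HeightOneSpectrum.mem_adicCompletionIntegers, map_mul, map_inv₀]
    rw [mul_inv_le_iff₀ (zero_lt_iff.2 hva), one_mul]
  rw [this]
  exact hcl.preimage hc

/-- `𝓞 K` is dense in `𝒪_v`. -/
theorem intRange_dense812 (v : HeightOneSpectrum (𝓞 K)) {y : v.adicCompletion K}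
    (hy : Valued.v y ≤ 1) : y ∈ closure (Set.range (iota812 v)) := by
  rw [mem_closure_iff_nhds]
  intro t ht
  obtain ⟨γ, hγ⟩ := Valued.mem_nhds.1 ht
  have hne : MonoidWithZeroHom.ValueGroup₀.embedding γ.1 ≠ 0 := by
    intro h0
    simp at h0
  have hB : {z : v.adicCompletion K | Valued.v.restrict (z - y) < γ.1} ∈ nhds y :=
    Valued.mem_nhds.2 ⟨γ, subset_rfl⟩
  have hO : ((v.adicCompletionIntegers K : Set (v.adicCompletion K))) ∈ nhds y :=
    (Valued.isOpen_valuationSubring _).mem_nhds hy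
  obtain ⟨z, ⟨hz1, hz2⟩, k, rfl⟩ :=
    mem_closure_iff_nhds.1 ((HeightOneSpectrum.denseRange_algebraMap K v) y) _
      (Filter.inter_mem hB hO)
  have hk1 : v.valuation K k ≤ 1 := by
    rw [← HeightOneSpectrum.valuedAdicCompletion_eq_valuation']
    exact hz2
  have hk2 : Valued.v (algebraMap K (v.adicCompletion K) k - y)
      < MonoidWithZeroHom.ValueGroup₀.embedding γ.1 :=
    (Valuation.restrict_lt_iff_lt_embedding _).1 hz1
  obtain ⟨a, ha⟩ := v.exists_valuation_sub_lt_of_integer hk1 (Units.mk0 _ hne)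
  refine ⟨iota812 v a, hγ ?_, ⟨a, rfl⟩⟩
  show Valued.v.restrict (iota812 v a - y) < γ.1
  rw [Valuation.restrict_lt_iff_lt_embedding]
  have e : iota812 v a - y
      = algebraMap K (v.adicCompletion K) (algebraMap (𝓞 K) K a - k)
        + (algebraMap K (v.adicCompletion K) k - y) := by
    rw [iota812_apply, map_sub]; ring
  rw [e]
  refine lt_of_le_of_lt (Valuation.map_add _ _ _) (max_lt ?_ hk2)
  have := HeightOneSpectrum.valuedAdicCompletion_eq_valuation' v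
    (algebraMap (𝓞 K) K a - k)
  rw [Units.val_mk0] at ha
  exact this ▸ ha

/-- `d 𝒪_v ⊆ 𝔫 𝒪_v` for `d ∈ 𝔫`. -/
theorem mul_mem_idealClosure812 (𝔫 : Ideal (𝓞 K)) (v : HeightOneSpectrum (𝓞 K)) {d : 𝓞 K}
    (hd : d ∈ 𝔫) {y : v.adicCompletion K} (hy : Valued.v y ≤ 1) :
    iota812 v d * y ∈ idealClosure 𝔫 v := by
  have h1 := Set.mem_image_of_mem (fun z : v.adicCompletion K => iota812 v d * z)
    (intRange_dense812 v hy)
  have h2 := image_closure_subset_closure_image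
    (f := fun z : v.adicCompletion K => iota812 v d * z) (s := Set.range (iota812 v))
    (continuous_const.mul continuous_id) h1
  refine closure_mono ?_ h2
  rintro _ ⟨_, ⟨a, rfl⟩, rfl⟩
  exact ⟨d * a, 𝔫.mul_mem_right a hd, map_mul _ _ _⟩

/-- Multiplication by `c` maps the closure of `𝔑₀` into the closure of `𝔑₁` if `c 𝔑₀ ⊆ 𝔑₁`. -/
theorem colon_mul_mem_idealClosure812 (𝔑₀ 𝔑₁ : Ideal (𝓞 K)) (v : HeightOneSpectrum (𝓞 K))
    {c : 𝓞 K} (hc : ∀ z ∈ 𝔑₀, c * z ∈ 𝔑₁) {y : v.adicCompletion K}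
    (hy : y ∈ idealClosure 𝔑₀ v) : iota812 v c * y ∈ idealClosure 𝔑₁ v := by
  have h1 := Set.mem_image_of_mem (fun z : v.adicCompletion K => iota812 v c * z) hy
  have h2 := image_closure_subset_closure_image
    (f := fun z : v.adicCompletion K => iota812 v c * z)
    (continuous_const.mul continuous_id) h1
  refine closure_mono ?_ h2
  rintro _ ⟨_, ⟨a, ha, rfl⟩, rfl⟩
  exact ⟨c * a, hc a ha, map_mul _ _ _⟩

/-- A non-zero ideal has a non-zero element of maximal valuation at `v`. -/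
theorem exists_max_val812 (𝔫 : Ideal (𝓞 K)) (h𝔫 : ∃ z ∈ 𝔫, z ≠ 0)
    (v : HeightOneSpectrum (𝓞 K)) :
    ∃ z ∈ 𝔫, z ≠ 0 ∧ ∀ x ∈ 𝔫, v.intValuation x ≤ v.intValuation z := by
  classical
  -- the exponents of the non-zero elements of `𝔫`
  have hex : ∃ n : ℕ, ∃ z ∈ 𝔫, z ≠ 0 ∧ ¬ z ∈ v.asIdeal ^ (n + 1) := by
    obtain ⟨z, hz, hz0⟩ := h𝔫
    have hv0 : v.intValuation z ≠ 0 := v.intValuation_ne_zero z hz0
    obtain ⟨n, hn⟩ := WithZero.exists_exp_neg_natCast_lt (x := v.intValuation z) hv0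
    refine ⟨n, z, hz, hz0, fun hmem => ?_⟩
    have h1 : v.intValuation z ≤ WithZero.exp (-((n + 1 : ℕ) : ℤ)) :=
      (v.intValuation_le_pow_iff_mem z (n + 1)).2 hmem
    have h2 : WithZero.exp (-((n + 1 : ℕ) : ℤ)) ≤ WithZero.exp (-(n : ℤ)) := by
      rw [WithZero.exp_le_exp]
      push_cast
      omega
    exact absurd (lt_of_lt_of_le hn (h1.trans h2)) (lt_irrefl _)
  obtain ⟨z, hz, hz0, hzn⟩ := Nat.find_spec hex
  refine ⟨z, hz, hz0, fun x hx => ?_⟩
  by_cases hx0 : x = 0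
  · rw [hx0, map_zero]
    exact zero_le
  -- `x ∈ v ^ (find)` by minimality
  have hxmem : x ∈ v.asIdeal ^ (Nat.find hex) := by
    rcases Nat.eq_zero_or_pos (Nat.find hex) with h0 | hpos
    · rw [h0, pow_zero, Ideal.one_eq_top]
      trivial
    · by_contra hcon
      have hlt : Nat.find hex - 1 < Nat.find hex := Nat.sub_lt hpos Nat.one_pos
      refine Nat.find_min hex hlt ⟨x, hx, hx0, ?_⟩
      rwa [Nat.sub_add_cancel hpos]
  have h1 : v.intValuation x ≤ WithZero.exp (-((Nat.find hex : ℕ) : ℤ)) :=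
    (v.intValuation_le_pow_iff_mem x _).2 hxmem
  refine h1.trans ?_
  -- `|z| ≥ exp (-find)` as `z ∉ v ^ (find + 1)`
  by_contra hcon
  rw [not_le] at hcon
  apply hzn
  rw [← v.intValuation_le_pow_iff_mem]
  have hv0 : v.intValuation z ≠ 0 := v.intValuation_ne_zero z hz0
  obtain ⟨m, hm⟩ : ∃ m : ℤ, v.intValuation z = WithZero.exp m := by
    refine ⟨WithZero.log (v.intValuation z), ?_⟩
    rw [WithZero.exp_log hv0]
  rw [hm, WithZero.exp_lt_exp] at hcon
  rw [hm, WithZero.exp_le_exp]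
  push_cast
  omega

/-- The closure of `𝔫` at `v` is contained in the closed ball of radius `|z₀|_v`, for `z₀ ∈ 𝔫` of
maximal valuation. -/
theorem val_le_of_mem_idealClosure812 (𝔫 : Ideal (𝓞 K)) (v : HeightOneSpectrum (𝓞 K))
    {z₀ : 𝓞 K} (hz0 : z₀ ≠ 0) (hmax : ∀ x ∈ 𝔫, v.intValuation x ≤ v.intValuation z₀)
    {y : v.adicCompletion K} (hy : y ∈ idealClosure 𝔫 v) :
    Valued.v y ≤ Valued.v (iota812 v z₀) := by
  have ha : iota812 v z₀ ≠ 0 := (Valuation.ne_zero_iff _).1 (val_iota_ne_zero812 v hz0)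
  have hsub : (iota812 v) '' (𝔫 : Set (𝓞 K)) ⊆
      {y : v.adicCompletion K | Valued.v y ≤ Valued.v (iota812 v z₀)} := by
    rintro _ ⟨x, hx, rfl⟩
    show Valued.v (iota812 v x) ≤ Valued.v (iota812 v z₀)
    rw [val_iota812, val_iota812]
    exact hmax x hx
  exact closure_minimal hsub (isClosed_ball812 v _ ha) hy

/-- The closed ball of radius `|z₀|_v` is contained in the closure of `𝔫` at `v`, for
`z₀ ∈ 𝔫`, `z₀ ≠ 0`. -/
theorem mem_idealClosure_of_val_le812 (𝔫 : Ideal (𝓞 K)) (v : HeightOneSpectrum (𝓞 K))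
    {z₀ : 𝓞 K} (hz : z₀ ∈ 𝔫) (hz0 : z₀ ≠ 0) {y : v.adicCompletion K}
    (hy : Valued.v y ≤ Valued.v (iota812 v z₀)) : y ∈ idealClosure 𝔫 v := by
  have hva : Valued.v (iota812 v z₀) ≠ 0 := val_iota_ne_zero812 v hz0
  have ha : iota812 v z₀ ≠ 0 := (Valuation.ne_zero_iff _).1 hva
  have h1 : Valued.v (y * (iota812 v z₀)⁻¹) ≤ 1 := by
    rw [map_mul, map_inv₀, mul_inv_le_iff₀ (zero_lt_iff.2 hva), one_mul]
    exact hy
  have h2 := mul_mem_idealClosure812 𝔫 v hz h1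
  have e : iota812 v z₀ * (y * (iota812 v z₀)⁻¹) = y := by
    field_simp
  rwa [e] at h2

/-- The closure of `𝔫` at `v` is the closed ball of radius `|z₀|_v`. -/
theorem mem_idealClosure_iff812 (𝔫 : Ideal (𝓞 K)) (v : HeightOneSpectrum (𝓞 K))
    {z₀ : 𝓞 K} (hz : z₀ ∈ 𝔫) (hz0 : z₀ ≠ 0)
    (hmax : ∀ x ∈ 𝔫, v.intValuation x ≤ v.intValuation z₀) (y : v.adicCompletion K) :
    y ∈ idealClosure 𝔫 v ↔ Valued.v y ≤ Valued.v (iota812 v z₀) :=
  ⟨fun h => val_le_of_mem_idealClosure812 𝔫 v hz0 hmax h,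
    fun h => mem_idealClosure_of_val_le812 𝔫 v hz hz0 h⟩

/-- In the product `𝔑₀ 𝔡` every element has valuation at most `|z₀| |d|` for some `d ∈ 𝔡`. -/
theorem exists_factor_val812 (𝔑₀ 𝔡 : Ideal (𝓞 K)) (v : HeightOneSpectrum (𝓞 K)) {z₀ : 𝓞 K}
    (hmax : ∀ x ∈ 𝔑₀, v.intValuation x ≤ v.intValuation z₀) {z : 𝓞 K} (hz : z ∈ 𝔑₀ * 𝔡) :
    ∃ d ∈ 𝔡, v.intValuation z ≤ v.intValuation z₀ * v.intValuation d := by
  refine Submodule.mul_induction_on hz ?_ ?_
  · intro a ha d hd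
    refine ⟨d, hd, ?_⟩
    rw [map_mul]
    exact mul_le_mul_left (hmax a ha) _
  · rintro x y ⟨d, hd, hxd⟩ ⟨e, he, hye⟩
    rcases le_total (v.intValuation z₀ * v.intValuation d)
      (v.intValuation z₀ * v.intValuation e) with h | h
    · exact ⟨e, he, (Valuation.map_add _ _ _).trans (max_le (hxd.trans h) hye)⟩
    · exact ⟨d, hd, (Valuation.map_add _ _ _).trans (max_le hxd (hye.trans h))⟩

/-- **The colon characterisation.**  For non-zero ideals `𝔑₁ ≤ 𝔑₀`: if `c y` lies in the closure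
of `𝔑₁` at `v` for every `c` with `c 𝔑₀ ⊆ 𝔑₁`, then `y` lies in the closure of `𝔑₀`. -/
theorem mem_idealClosure_of_colon812 (𝔑₀ 𝔑₁ : Ideal (𝓞 K)) (hle : 𝔑₁ ≤ 𝔑₀)
    (hne : ∃ z ∈ 𝔑₁, z ≠ 0) (v : HeightOneSpectrum (𝓞 K)) {y : v.adicCompletion K}
    (hy : ∀ c : 𝓞 K, (∀ z ∈ 𝔑₀, c * z ∈ 𝔑₁) → iota812 v c * y ∈ idealClosure 𝔑₁ v) :
    y ∈ idealClosure 𝔑₀ v := by
  have hne0 : ∃ z ∈ 𝔑₀, z ≠ 0 := by
    obtain ⟨z, hz, hz0⟩ := hne
    exact ⟨z, hle hz, hz0⟩
  obtain ⟨z₀, hz₀, hz₀0, hmax₀⟩ := exists_max_val812 𝔑₀ hne0 v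
  obtain ⟨z₁, hz₁, hz₁0, hmax₁⟩ := exists_max_val812 𝔑₁ hne v
  obtain ⟨𝔡, h𝔡⟩ : 𝔑₀ ∣ 𝔑₁ := Ideal.dvd_iff_le.2 hle
  have hz₁' : z₁ ∈ 𝔑₀ * 𝔡 := h𝔡 ▸ hz₁
  obtain ⟨d, hd, hval⟩ := exists_factor_val812 𝔑₀ 𝔡 v hmax₀ hz₁'
  -- `d` lies in the colon ideal
  have hdc : ∀ z ∈ 𝔑₀, d * z ∈ 𝔑₁ := by
    intro z hz
    rw [h𝔡, mul_comm d z]
    exact Ideal.mul_mem_mul hz hd
  have hvd : v.intValuation d ≠ 0 := by
    intro h0
    rw [h0, mul_zero] at hval
    exact v.intValuation_ne_zero z₁ hz₁0 (le_antisymm hval zero_le)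
  have h1 := val_le_of_mem_idealClosure812 𝔑₁ v hz₁0 hmax₁ (hy d hdc)
  refine mem_idealClosure_of_val_le812 𝔑₀ v hz₀ hz₀0 ?_
  rw [map_mul, val_iota812, val_iota812] at h1
  rw [val_iota812]
  have h2 : v.intValuation d * Valued.v y ≤ v.intValuation d * v.intValuation z₀ := by
    rw [mul_comm (v.intValuation d) (v.intValuation z₀)]
    exact h1.trans hval
  exact (mul_le_mul_iff_right₀ (zero_lt_iff.2 hvd)).1 h2

end Fermat.Agent.LT.T7.H812

end
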