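import Mathlib
import Fermat.Agent.LT.T7.H561.SpecUpTop
import Fermat.Agent.LT.T7.H812.StableLocal

/-!
# Row LT, tower T7, leaf T7.L2.2.S `StableC561` (helper812)

OFF-MAIN.  ADDITIVE.  Every proof is complete, nothing assumed.  Target: `StableC561 K K'` of
`T7/H561/SpecUpTop.lean` (helper561@fa57d28b6) VERBATIM:

    stableC812 (K K') : Fermat.Agent.LT.T7.H561.StableC561 K K'

## The proof

No structure theory of the automorphisms of the adele ring is needed: the data give the stability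
of a DEEPER level for free, and the base level is recovered from it by a colon ideal.

* `1` is a bad element, so `IsL2Data.comp 1` gives `IsCompData`: `σ` fixes the image of `K`
  (`cyc.fixed`, `base`), and `aut.level` says that `U(𝔑₁)` is stable under `σ` for the level
  `𝔑₁ = (𝔫 1) 𝒪_{K'} ≠ 0`;  `IsL2Data.level_g 1` gives `𝔑₁ ≤ 𝔑₀`.
* `Lset812 𝔑` : the adeles `x` with `x_∞ = 0` and `x_v ∈ 𝔑 𝒪_v` for all `v`.  `u ∈ U(𝔑)` iff the
  entries of `u - 1` and `u⁻¹ - 1` lie in `Lset812 𝔑` (`inLevelGroup_iff812`), and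
  `x ∈ Lset812 𝔑` iff the transvection `1 + x E₁₂` lies in `U(𝔑)`
  (`inLevelGroup_upper_iff812`); so `Lset812 𝔑₁` is stable under `σ_𝔸`.
* colon ideal `𝔠 = (𝔑₁ : 𝔑₀)`: `x ∈ Lset812 𝔑₀` iff `c x ∈ Lset812 𝔑₁` for all `c ∈ 𝔠`
  (`lset_colon_iff812`, from the local statement of `StableLocal.lean`: Dedekind);
  `𝔠` is `σ`-stable because `𝔑₀` and `𝔑₁` are extended from `K`; and
  `σ_𝔸 (c x) = σ(c) σ_𝔸(x)`.  Hence `Lset812 𝔑₀` is stable under `σ_𝔸`.
-/

set_option autoImplicit false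
set_option linter.unusedSectionVars false

open AutomorphicForm IsDedekindDomain NumberField MeasureTheory

noncomputable section

namespace Fermat.Agent.LT.T7.H812

open Fermat.Agent.LT.H556 Fermat.Agent.LT.H556.A0 Fermat.Agent.LT.T7 Fermat.Agent.LT.T7.H561

section OneField

variable {K : Type} [Field K] [NumberField K]

/-! ## 1. Components -/

/-- The component at the infinite place `w`, as a ring homomorphism. -/
def infC812 (w : InfinitePlace K) : Adl K →+* w.Completion :=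
  (Pi.evalRingHom (fun v : InfinitePlace K => v.Completion) w).comp
    (RingHom.fst (InfiniteAdeleRing K) (FiniteAdeleRing (𝓞 K) K))

/-- The component at the finite place `v`, as a ring homomorphism. -/
def finC812 (v : HeightOneSpectrum (𝓞 K)) : Adl K →+* v.adicCompletion K :=
  (RestrictedProduct.evalRingHom (fun v : HeightOneSpectrum (𝓞 K) => v.adicCompletion K) v).comp
    (RingHom.snd (InfiniteAdeleRing K) (FiniteAdeleRing (𝓞 K) K))

theorem infC812_apply (w : InfinitePlace K) (x : Adl K) : infC812 w x = x.1 w := rfl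

theorem finC812_apply (v : HeightOneSpectrum (𝓞 K)) (x : Adl K) : finC812 v x = x.2 v := rfl

/-- The entries of the identity matrix are preserved by a ring homomorphism. -/
theorem map_one_entry812 {A B : Type*} [Semiring A] [Semiring B] (f : A →+* B) (i j : Fin 2) :
    f ((1 : Matrix (Fin 2) (Fin 2) A) i j) = (1 : Matrix (Fin 2) (Fin 2) B) i j := by
  by_cases h : i = j
  · subst h
    rw [Matrix.one_apply_eq, Matrix.one_apply_eq, map_one]
  · rw [Matrix.one_apply_ne h, Matrix.one_apply_ne h, map_zero]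

/-- The entries of the image of `g` under `GL₂(f)`. -/
theorem glMap_entry812 {A B : Type*} [CommRing A] [CommRing B] (f : A →+* B)
    (g : GL (Fin 2) A) (i j : Fin 2) :
    ((Matrix.GeneralLinearGroup.map f g : GL (Fin 2) B) : Matrix (Fin 2) (Fin 2) B) i j
      = f ((g : Matrix (Fin 2) (Fin 2) A) i j) := rfl

/-- If `u` is trivial at `w`, so is `u⁻¹`. -/
theorem trivAtInf_inv812 (w : InfinitePlace K) (u : G K) (h : TrivAtInf w u) :
    TrivAtInf w u⁻¹ := by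
  have h1 : Matrix.GeneralLinearGroup.map (infC812 w) u = 1 := by
    apply Units.ext
    refine Matrix.ext (fun i j => ?_)
    exact h i j
  have h2 : Matrix.GeneralLinearGroup.map (infC812 w) u⁻¹ = 1 := by
    rw [map_inv, h1, inv_one]
  intro i j
  have h3 := congrArg (fun g : GL (Fin 2) w.Completion =>
    (g : Matrix (Fin 2) (Fin 2) w.Completion) i j) h2
  exact h3

/-! ## 2. The additive form of the level group -/

/-- The adeles with trivial infinite part whose component at every finite place `v` lies in the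
closure `𝔫 𝒪_v`. -/
def Lset812 (𝔫 : Ideal (𝓞 K)) : Set (Adl K) :=
  {x | (∀ w : InfinitePlace K, x.1 w = 0) ∧
    ∀ v : HeightOneSpectrum (𝓞 K), x.2 v ∈ idealClosure 𝔫 v}

theorem mem_Lset812 (𝔫 : Ideal (𝓞 K)) (x : Adl K) :
    x ∈ Lset812 𝔫 ↔ (∀ w : InfinitePlace K, x.1 w = 0) ∧
      ∀ v : HeightOneSpectrum (𝓞 K), x.2 v ∈ idealClosure 𝔫 v := Iff.rfl

theorem zero_mem_Lset812 (𝔫 : Ideal (𝓞 K)) : (0 : Adl K) ∈ Lset812 𝔫 :=
  ⟨fun _ => rfl, fun v => subset_closure ⟨0, 𝔫.zero_mem, by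
    show algebraMap K (v.adicCompletion K) (algebraMap (𝓞 K) K 0) = 0
    rw [map_zero, map_zero]⟩⟩

theorem neg_mem_Lset812 (𝔫 : Ideal (𝓞 K)) {x : Adl K} (hx : x ∈ Lset812 𝔫) :
    -x ∈ Lset812 𝔫 := by
  refine ⟨fun w => ?_, fun v => ?_⟩
  · show -(x.1 w) = 0
    rw [hx.1 w, neg_zero]
  · show -(x.2 v) ∈ idealClosure 𝔫 v
    refine map_mem_closure (f := fun a : v.adicCompletion K => -a) continuous_neg (hx.2 v) ?_
    rintro _ ⟨a, ha, rfl⟩
    refine ⟨-a, 𝔫.neg_mem ha, ?_⟩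
    show algebraMap K (v.adicCompletion K) (algebraMap (𝓞 K) K (-a)) = _
    rw [map_neg, map_neg]

/-- The entry of `u - 1` at the finite place `v`. -/
theorem finComp_sub_one812 (v : HeightOneSpectrum (𝓞 K)) (u : G K) (i j : Fin 2) :
    (finComp v u - 1) i j
      = ((u : Matrix (Fin 2) (Fin 2) (Adl K)) i j - (1 : Matrix (Fin 2) (Fin 2) (Adl K)) i j).2 v := by
  have h := map_one_entry812 (finC812 v) i j
  rw [finC812_apply] at h
  show ((u : Matrix (Fin 2) (Fin 2) (Adl K)) i j).2 v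
      - (1 : Matrix (Fin 2) (Fin 2) (v.adicCompletion K)) i j = _
  rw [← h]
  rfl

/-- `u ∈ U(𝔫)` iff the entries of `u - 1` and of `u⁻¹ - 1` lie in `Lset812 𝔫`. -/
theorem inLevelGroup_iff812 (𝔫 : Ideal (𝓞 K)) (u : G K) :
    InLevelGroup 𝔫 u ↔ ∀ i j : Fin 2,
      ((u : Matrix (Fin 2) (Fin 2) (Adl K)) i j - (1 : Matrix (Fin 2) (Fin 2) (Adl K)) i j)
          ∈ Lset812 𝔫 ∧
      (((u⁻¹ : G K) : Matrix (Fin 2) (Fin 2) (Adl K)) i j
          - (1 : Matrix (Fin 2) (Fin 2) (Adl K)) i j) ∈ Lset812 𝔫 := by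
  have hone : ∀ (w : InfinitePlace K) (i j : Fin 2),
      ((1 : Matrix (Fin 2) (Fin 2) (Adl K)) i j).1 w
        = (1 : Matrix (Fin 2) (Fin 2) w.Completion) i j := fun w i j =>
    map_one_entry812 (infC812 w) i j
  constructor
  · rintro ⟨hinf, hfin⟩ i j
    refine ⟨⟨fun w => ?_, fun v => ?_⟩, ⟨fun w => ?_, fun v => ?_⟩⟩
    · show ((u : Matrix (Fin 2) (Fin 2) (Adl K)) i j).1 w
          - ((1 : Matrix (Fin 2) (Fin 2) (Adl K)) i j).1 w = 0
      rw [hone, hinf w i j, sub_self]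
    · rw [← finComp_sub_one812]
      exact (hfin v i j).1
    · show (((u⁻¹ : G K) : Matrix (Fin 2) (Fin 2) (Adl K)) i j).1 w
          - ((1 : Matrix (Fin 2) (Fin 2) (Adl K)) i j).1 w = 0
      rw [hone, trivAtInf_inv812 w u (hinf w) i j, sub_self]
    · rw [← finComp_sub_one812]
      exact (hfin v i j).2
  · intro h
    refine ⟨fun w i j => ?_, fun v i j => ⟨?_, ?_⟩⟩
    · have h1 := (h i j).1.1 w
      have h2 : ((u : Matrix (Fin 2) (Fin 2) (Adl K)) i j).1 w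
          - ((1 : Matrix (Fin 2) (Fin 2) (Adl K)) i j).1 w = 0 := h1
      rw [hone] at h2
      exact sub_eq_zero.1 h2
    · rw [finComp_sub_one812]
      exact (h i j).1.2 v
    · rw [finComp_sub_one812]
      exact (h i j).2.2 v

/-! ## 3. Transvections -/

/-- The transvection `1 + x E₁₂`. -/
def upper812 (x : Adl K) : G K where
  val := !![1, x; 0, 1]
  inv := !![1, -x; 0, 1]
  val_inv := by
    ext i j
    fin_cases i <;> fin_cases j <;> simp [Matrix.mul_apply, Fin.sum_univ_two]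
  inv_val := by
    ext i j
    fin_cases i <;> fin_cases j <;> simp [Matrix.mul_apply, Fin.sum_univ_two]

theorem upper812_val (x : Adl K) :
    ((upper812 x : G K) : Matrix (Fin 2) (Fin 2) (Adl K)) = !![1, x; 0, 1] := rfl

theorem upper812_inv (x : Adl K) : (upper812 x)⁻¹ = upper812 (-x) := by
  apply Units.ext
  show !![1, -x; 0, 1] = !![1, -x; 0, 1]
  rfl

/-- The entries of `upper812 x - 1`. -/
theorem upper812_sub_one (x : Adl K) (i j : Fin 2) :
    ((upper812 x : G K) : Matrix (Fin 2) (Fin 2) (Adl K)) i j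
        - (1 : Matrix (Fin 2) (Fin 2) (Adl K)) i j = 0 ∨
      ((upper812 x : G K) : Matrix (Fin 2) (Fin 2) (Adl K)) i j
        - (1 : Matrix (Fin 2) (Fin 2) (Adl K)) i j = x := by
  rw [upper812_val]
  fin_cases i <;> fin_cases j <;> simp

theorem upper812_sub_one_01 (x : Adl K) :
    ((upper812 x : G K) : Matrix (Fin 2) (Fin 2) (Adl K)) 0 1
        - (1 : Matrix (Fin 2) (Fin 2) (Adl K)) 0 1 = x := by
  rw [upper812_val]
  simp

/-- `1 + x E₁₂ ∈ U(𝔫)` iff `x ∈ Lset812 𝔫`. -/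
theorem inLevelGroup_upper_iff812 (𝔫 : Ideal (𝓞 K)) (x : Adl K) :
    InLevelGroup 𝔫 (upper812 x) ↔ x ∈ Lset812 𝔫 := by
  rw [inLevelGroup_iff812]
  constructor
  · intro h
    have h1 := (h 0 1).1
    rwa [upper812_sub_one_01] at h1
  · intro hx i j
    constructor
    · rcases upper812_sub_one x i j with h | h
      · rw [h]; exact zero_mem_Lset812 𝔫
      · rw [h]; exact hx
    · rw [upper812_inv]
      rcases upper812_sub_one (-x) i j with h | h
      · rw [h]; exact zero_mem_Lset812 𝔫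
      · rw [h]; exact neg_mem_Lset812 𝔫 hx

/-- The automorphism maps the transvection of `x` to the transvection of `σ_𝔸 x`. -/
theorem onG_upper812 (s : T5.AdelicAut K) (x : Adl K) :
    s.onG (upper812 x) = upper812 (s.σA x) := by
  apply Units.ext
  ext i j
  show (s.σA : Adl K →+* Adl K) (((upper812 x : G K) : Matrix (Fin 2) (Fin 2) (Adl K)) i j)
    = ((upper812 (s.σA x) : G K) : Matrix (Fin 2) (Fin 2) (Adl K)) i j
  rw [upper812_val, upper812_val]
  fin_cases i <;> fin_cases j <;> simp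

/-- If `U(𝔫)` is stable under `σ`, then `Lset812 𝔫` is stable under `σ_𝔸`. -/
theorem lset_iff_of_level812 (s : T5.AdelicAut K) (𝔫 : Ideal (𝓞 K))
    (hlev : ∀ u : G K, InLevelGroup 𝔫 u ↔ InLevelGroup 𝔫 (s.onG u)) (x : Adl K) :
    x ∈ Lset812 𝔫 ↔ s.σA x ∈ Lset812 𝔫 := by
  rw [← inLevelGroup_upper_iff812, ← inLevelGroup_upper_iff812, ← onG_upper812]
  exact hlev (upper812 x)

/-! ## 4. The colon ideal -/

/-- The principal adele of an integer. -/
def intAdele812 (c : 𝓞 K) : Adl K := algebraMap K (Adl K) (algebraMap (𝓞 K) K c)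

theorem intAdele812_mul_fin (c : 𝓞 K) (x : Adl K) (v : HeightOneSpectrum (𝓞 K)) :
    (intAdele812 c * x).2 v = iota812 v c * x.2 v := rfl

theorem intAdele812_mul_inf (c : 𝓞 K) (x : Adl K) (w : InfinitePlace K) :
    (intAdele812 c * x).1 w
      = algebraMap K w.Completion (algebraMap (𝓞 K) K c) * x.1 w := rfl

/-- **The colon characterisation of `Lset812`.** -/
theorem lset_colon_iff812 (𝔑₀ 𝔑₁ : Ideal (𝓞 K)) (hle : 𝔑₁ ≤ 𝔑₀) (hne : ∃ z ∈ 𝔑₁, z ≠ 0)
    (x : Adl K) :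
    x ∈ Lset812 𝔑₀ ↔
      ∀ c : 𝓞 K, (∀ z ∈ 𝔑₀, c * z ∈ 𝔑₁) → intAdele812 c * x ∈ Lset812 𝔑₁ := by
  constructor
  · rintro ⟨hinf, hfin⟩ c hc
    refine ⟨fun w => ?_, fun v => ?_⟩
    · rw [intAdele812_mul_inf, hinf w, mul_zero]
    · rw [intAdele812_mul_fin]
      exact colon_mul_mem_idealClosure812 𝔑₀ 𝔑₁ v hc (hfin v)
  · intro h
    refine ⟨fun w => ?_, fun v => ?_⟩
    · obtain ⟨z, hz, hz0⟩ := hne
      have h1 := (h z (fun z' _ => 𝔑₁.mul_mem_right z' hz)).1 w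
      rw [intAdele812_mul_inf] at h1
      have hz1 : algebraMap K w.Completion (algebraMap (𝓞 K) K z) ≠ 0 := by
        intro h0
        have h2 : algebraMap (𝓞 K) K z = 0 :=
          (map_eq_zero (algebraMap K w.Completion)).1 h0
        exact hz0 (RingOfIntegers.coe_eq_zero_iff.1 h2)
      exact (mul_eq_zero.1 h1).resolve_left hz1
    · refine mem_idealClosure_of_colon812 𝔑₀ 𝔑₁ hle hne v (fun c hc => ?_)
      rw [← intAdele812_mul_fin]
      exact (h c hc).2 v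

/-- **The key step.**  If `𝔑₁ ≤ 𝔑₀` are non-zero ideals stable under `σ` and `U(𝔑₁)` is stable
under the automorphism, then `Lset812 𝔑₀` goes into itself. -/
theorem lset_map_of_level812 (s : T5.AdelicAut K) (𝔑₀ 𝔑₁ : Ideal (𝓞 K)) (hle : 𝔑₁ ≤ 𝔑₀)
    (hne : ∃ z ∈ 𝔑₁, z ≠ 0)
    (h₀ : ∀ z : 𝓞 K, z ∈ 𝔑₀ ↔ RingOfIntegers.mapRingEquiv s.σ z ∈ 𝔑₀)
    (h₁ : ∀ z : 𝓞 K, z ∈ 𝔑₁ ↔ RingOfIntegers.mapRingEquiv s.σ z ∈ 𝔑₁)
    (hlev : ∀ u : G K, InLevelGroup 𝔑₁ u ↔ InLevelGroup 𝔑₁ (s.onG u)) (x : Adl K) :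
    x ∈ Lset812 𝔑₀ ↔ s.σA x ∈ Lset812 𝔑₀ := by
  -- the action of `σ` on the principal adeles of integers
  have hσ : ∀ (c : 𝓞 K) (y : Adl K),
      s.σA (intAdele812 c * y) = intAdele812 (RingOfIntegers.mapRingEquiv s.σ c) * s.σA y := by
    intro c y
    rw [map_mul]
    congr 1
    exact s.compat _
  -- the colon ideal is stable
  have hcol : ∀ c : 𝓞 K, (∀ z ∈ 𝔑₀, c * z ∈ 𝔑₁) ↔
      (∀ z ∈ 𝔑₀, RingOfIntegers.mapRingEquiv s.σ c * z ∈ 𝔑₁) := by
    intro c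
    constructor
    · intro hc z hz
      have hz' : (RingOfIntegers.mapRingEquiv s.σ).symm z ∈ 𝔑₀ := by
        rw [h₀, RingEquiv.apply_symm_apply]
        exact hz
      have h2 := (h₁ _).1 (hc _ hz')
      rwa [map_mul, RingEquiv.apply_symm_apply] at h2
    · intro hc z hz
      rw [h₁, map_mul]
      exact hc _ ((h₀ z).1 hz)
  rw [lset_colon_iff812 𝔑₀ 𝔑₁ hle hne x, lset_colon_iff812 𝔑₀ 𝔑₁ hle hne (s.σA x)]
  constructor
  · intro h c hc
    have hc' : ∀ z ∈ 𝔑₀, (RingOfIntegers.mapRingEquiv s.σ).symm c * z ∈ 𝔑₁ := by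
      rw [hcol, RingEquiv.apply_symm_apply]
      exact hc
    have h1 := (lset_iff_of_level812 s 𝔑₁ hlev _).1 (h _ hc')
    rwa [hσ, RingEquiv.apply_symm_apply] at h1
  · intro h c hc
    rw [lset_iff_of_level812 s 𝔑₁ hlev, hσ]
    exact h _ ((hcol c).1 hc)

/-- **Stability of the level group**: if `𝔑₁ ≤ 𝔑₀` are non-zero ideals stable under `σ` and
`U(𝔑₁)` is stable under the automorphism, then so is `U(𝔑₀)`. -/
theorem level_of_level812 (s : T5.AdelicAut K) (𝔑₀ 𝔑₁ : Ideal (𝓞 K)) (hle : 𝔑₁ ≤ 𝔑₀)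
    (hne : ∃ z ∈ 𝔑₁, z ≠ 0)
    (h₀ : ∀ z : 𝓞 K, z ∈ 𝔑₀ ↔ RingOfIntegers.mapRingEquiv s.σ z ∈ 𝔑₀)
    (h₁ : ∀ z : 𝓞 K, z ∈ 𝔑₁ ↔ RingOfIntegers.mapRingEquiv s.σ z ∈ 𝔑₁)
    (hlev : ∀ u : G K, InLevelGroup 𝔑₁ u ↔ InLevelGroup 𝔑₁ (s.onG u)) (u : G K) :
    InLevelGroup 𝔑₀ u ↔ InLevelGroup 𝔑₀ (s.onG u) := by
  have hent : ∀ (g : G K) (i j : Fin 2),
      ((s.onG g : G K) : Matrix (Fin 2) (Fin 2) (Adl K)) i j
          - (1 : Matrix (Fin 2) (Fin 2) (Adl K)) i j
        = s.σA ((g : Matrix (Fin 2) (Fin 2) (Adl K)) i j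
          - (1 : Matrix (Fin 2) (Fin 2) (Adl K)) i j) := by
    intro g i j
    rw [map_sub]
    congr 1
    exact (map_one_entry812 (s.σA : Adl K →+* Adl K) i j).symm
  have hinv : (s.onG u)⁻¹ = s.onG u⁻¹ := (map_inv _ _).symm
  rw [inLevelGroup_iff812, inLevelGroup_iff812, hinv]
  refine forall_congr' (fun i => forall_congr' (fun j => ?_))
  rw [hent, hent]
  exact and_congr (lset_map_of_level812 s 𝔑₀ 𝔑₁ hle hne h₀ h₁ hlev _)
    (lset_map_of_level812 s 𝔑₀ 𝔑₁ hle hne h₀ h₁ hlev _)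

end OneField

/-! ## 5. Ideals extended from the base field -/

section TwoFields

variable {K K' : Type} [Field K] [NumberField K] [Field K'] [NumberField K'] [Algebra K K']

/-- An ideal extended from `K` goes into itself under an automorphism fixing `K`. -/
theorem map_mem_of_fix812 (σ : K' ≃+* K') (hσ : ∀ y : K, σ (algebraMap K K' y) = algebraMap K K' y)
    (𝔫 : Ideal (𝓞 K)) {z : 𝓞 K'} (hz : z ∈ Ideal.map (algebraMap (𝓞 K) (𝓞 K')) 𝔫) :
    RingOfIntegers.mapRingEquiv σ z ∈ Ideal.map (algebraMap (𝓞 K) (𝓞 K')) 𝔫 := by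
  have hle : Ideal.map (algebraMap (𝓞 K) (𝓞 K')) 𝔫
      ≤ Ideal.comap (RingOfIntegers.mapRingEquiv σ : 𝓞 K' →+* 𝓞 K')
        (Ideal.map (algebraMap (𝓞 K) (𝓞 K')) 𝔫) := by
    rw [Ideal.map_le_iff_le_comap]
    intro y hy
    rw [Ideal.mem_comap, Ideal.mem_comap]
    have e : (RingOfIntegers.mapRingEquiv σ : 𝓞 K' →+* 𝓞 K') (algebraMap (𝓞 K) (𝓞 K') y)
        = algebraMap (𝓞 K) (𝓞 K') y := by
      apply RingOfIntegers.ext
      exact hσ (algebraMap (𝓞 K) K y)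
    rw [e]
    exact Ideal.mem_map_of_mem _ hy
  exact hle hz

/-- An ideal extended from `K` is stable under an automorphism fixing `K`. -/
theorem map_mem_iff_of_fix812 (σ : K' ≃+* K')
    (hσ : ∀ y : K, σ (algebraMap K K' y) = algebraMap K K' y)
    (𝔫 : Ideal (𝓞 K)) (z : 𝓞 K') :
    z ∈ Ideal.map (algebraMap (𝓞 K) (𝓞 K')) 𝔫 ↔
      RingOfIntegers.mapRingEquiv σ z ∈ Ideal.map (algebraMap (𝓞 K) (𝓞 K')) 𝔫 := by
  refine ⟨fun h => map_mem_of_fix812 σ hσ 𝔫 h, fun h => ?_⟩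
  have hσ' : ∀ y : K, σ.symm (algebraMap K K' y) = algebraMap K K' y := by
    intro y
    rw [RingEquiv.symm_apply_eq]
    exact (hσ y).symm
  have h1 := map_mem_of_fix812 σ.symm hσ' 𝔫 h
  have e : RingOfIntegers.mapRingEquiv σ.symm (RingOfIntegers.mapRingEquiv σ z) = z := by
    apply RingOfIntegers.ext
    show σ.symm (σ (z : K')) = (z : K')
    exact σ.symm_apply_apply _
  rwa [e] at h1

/-- The identity is a bad element. -/
theorem isBad_one812 (Dt : L2Data K K') : Dt.IsBad 1 := by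
  refine ⟨fun w i j => ?_, fun v _ => ?_⟩
  · exact map_one_entry812 (infC812 w) i j
  · funext i j
    exact map_one_entry812 (finC812 v) i j

/-- **LEAF T7.L2.2.S = STABLE.** -/
theorem stableC812 (K K' : Type) [Field K] [NumberField K] [Field K'] [NumberField K']
    [Algebra K K'] : StableC561 K K' := by
  intro ℓ Φ Dt hDt hst u
  have hbad : Dt.IsBad 1 := isBad_one812 Dt
  have hcomp : IsCompData (Dt.comp 1) := hDt.comp 1 hbad
  have hle : Dt.𝔑 1 ≤ Dt.𝔑₀ := hDt.level_g 1 hbad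
  obtain ⟨𝔫₀, -, h𝔑₀⟩ := hst
  -- `σ` fixes the image of `K`
  have hσ : ∀ y : K, Dt.s.σ (algebraMap K K' y) = algebraMap K K' y := by
    intro y
    have h1 : algebraMap K K' y ∈ (Dt.comp 1).k := (hcomp.base _).2 ⟨y, rfl⟩
    exact (hcomp.cyc.fixed _).1 h1
  -- the deeper level is not zero
  have hne : ∃ z ∈ Dt.𝔑 1, z ≠ 0 := by
    have h1 : Dt.𝔫 1 ≠ ⊥ := hcomp.level_ne
    obtain ⟨y, hy, hy0⟩ := Submodule.exists_mem_ne_zero_of_ne_bot h1
    refine ⟨algebraMap (𝓞 K) (𝓞 K') y, Ideal.mem_map_of_mem _ hy, ?_⟩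
    intro h0
    exact hy0 (RingOfIntegers.algebraMap.injective K K' (h0.trans (map_zero _).symm))
  have hlev : ∀ u : G K', InLevelGroup (Dt.𝔑 1) u ↔ InLevelGroup (Dt.𝔑 1) (Dt.s.onG u) :=
    hcomp.aut.level
  have h₀ : ∀ z : 𝓞 K', z ∈ Dt.𝔑₀ ↔ RingOfIntegers.mapRingEquiv Dt.s.σ z ∈ Dt.𝔑₀ := by
    intro z
    rw [h𝔑₀]
    exact map_mem_iff_of_fix812 Dt.s.σ hσ 𝔫₀ z
  have h₁ : ∀ z : 𝓞 K', z ∈ Dt.𝔑 1 ↔ RingOfIntegers.mapRingEquiv Dt.s.σ z ∈ Dt.𝔑 1 :=
    fun z => map_mem_iff_of_fix812 Dt.s.σ hσ (Dt.𝔫 1) z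
  exact level_of_level812 Dt.s Dt.𝔑₀ (Dt.𝔑 1) hle hne h₀ h₁ hlev u

end TwoFields

end Fermat.Agent.LT.T7.H812

end
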