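import Mathlib
import Fermat.Agent.LT.T7.Spec

/-!
# Row LT, tower T7: places of `K'` over places of `K` (helper812; Mathlib + `T7/Spec.lean`)

OFF-MAIN.  ADDITIVE (new names only, suffix `812`).  Every proof is complete, nothing assumed.

    placesCore812 : the statement of `B981.SS503.PlacesC503 K K'` (leaf SS.5 of the cut of
                    helper503 of the node `B981.StepSC981`), word for word

`v = w ∩ 𝓞_K`, `f = f(w | v)` (`Ideal.absNorm_eq_pow_inertiaDeg'_of_liesOver`), the set of the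
places over `v` is finite (`primesOverFinset`), `∑ e f = [K' : K]`
(`Ideal.sum_ramification_inertia`).
-/

set_option autoImplicit false
set_option linter.unusedSectionVars false
set_option linter.deprecated false
set_option linter.style.haveILetI false

open IsDedekindDomain NumberField

noncomputable section

namespace Fermat.Agent.LT.T7.H812

open Fermat.Agent.LT.T7

variable {K K' : Type} [Field K] [NumberField K] [Field K'] [NumberField K'] [Algebra K K']

theorem coe_algebraMap812 (x : 𝓞 K) :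
    ((algebraMap (𝓞 K) (𝓞 K') x : 𝓞 K') : K') = algebraMap K K' (x : K) := rfl

/-- `w` lies over `v` iff `v = w ∩ 𝓞_K`. -/
theorem placeOver_iff_comap812 (v : HeightOneSpectrum (𝓞 K)) (w : HeightOneSpectrum (𝓞 K')) :
    PlaceOver K K' v w ↔ v.asIdeal = Ideal.comap (algebraMap (𝓞 K) (𝓞 K')) w.asIdeal := by
  constructor
  · intro h
    ext x
    rw [Ideal.mem_comap]
    exact h x (algebraMap (𝓞 K) (𝓞 K') x) (coe_algebraMap812 x)
  · intro h x y hxy
    have e : y = algebraMap (𝓞 K) (𝓞 K') x :=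
      RingOfIntegers.ext (hxy.trans (coe_algebraMap812 x).symm)
    rw [e, h, Ideal.mem_comap]

/-- The place of `K` under a place of `K'`. -/
def underPlace812 (K : Type) {K' : Type} [Field K] [NumberField K] [Field K'] [NumberField K']
    [Algebra K K'] (w : HeightOneSpectrum (𝓞 K')) : HeightOneSpectrum (𝓞 K) where
  asIdeal := Ideal.comap (algebraMap (𝓞 K) (𝓞 K')) w.asIdeal
  isPrime := Ideal.comap_isPrime _ _
  ne_bot := Ideal.under_ne_bot (𝓞 K) w.ne_bot

theorem underPlace812_asIdeal (w : HeightOneSpectrum (𝓞 K')) :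
    (underPlace812 K w).asIdeal = Ideal.comap (algebraMap (𝓞 K) (𝓞 K')) w.asIdeal := rfl

theorem placeOver_underPlace812 (w : HeightOneSpectrum (𝓞 K')) :
    PlaceOver K K' (underPlace812 K w) w :=
  (placeOver_iff_comap812 _ _).2 rfl

theorem eq_underPlace812 {v : HeightOneSpectrum (𝓞 K)} {w : HeightOneSpectrum (𝓞 K')}
    (h : PlaceOver K K' v w) : v = underPlace812 K w :=
  HeightOneSpectrum.ext ((placeOver_iff_comap812 v w).1 h)

theorem liesOver_of_placeOver812 {v : HeightOneSpectrum (𝓞 K)} {w : HeightOneSpectrum (𝓞 K')}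
    (h : PlaceOver K K' v w) : w.asIdeal.LiesOver v.asIdeal :=
  ⟨(placeOver_iff_comap812 v w).1 h⟩

theorem placeOver_of_liesOver812 {v : HeightOneSpectrum (𝓞 K)} {w : HeightOneSpectrum (𝓞 K')}
    (h : w.asIdeal.LiesOver v.asIdeal) : PlaceOver K K' v w :=
  (placeOver_iff_comap812 v w).2 h.over

/-- The residue degree. -/
theorem hasResDeg_inertiaDeg812 {v : HeightOneSpectrum (𝓞 K)} {w : HeightOneSpectrum (𝓞 K')}
    (h : PlaceOver K K' v w) :
    HasResDeg K K' v w (v.asIdeal.inertiaDeg' w.asIdeal) := by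
  haveI : w.asIdeal.LiesOver v.asIdeal := liesOver_of_placeOver812 h
  exact ⟨h, Ideal.absNorm_eq_pow_inertiaDeg'_of_liesOver w.asIdeal v.asIdeal v.isPrime v.ne_bot⟩

/-- The primes over `v` are the places over `v`. -/
theorem mem_primesOverFinset_iff812 (v : HeightOneSpectrum (𝓞 K))
    (w : HeightOneSpectrum (𝓞 K')) :
    w.asIdeal ∈ IsDedekindDomain.primesOverFinset v.asIdeal (𝓞 K') ↔ PlaceOver K K' v w := by
  haveI : v.asIdeal.IsMaximal := v.isMaximal
  rw [IsDedekindDomain.mem_primesOverFinset_iff v.ne_bot]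
  constructor
  · rintro ⟨_, h2⟩
    exact placeOver_of_liesOver812 h2
  · intro h
    exact ⟨w.isPrime, liesOver_of_placeOver812 h⟩

/-- A prime over `v` is a place. -/
theorem exists_place_of_mem812 (v : HeightOneSpectrum (𝓞 K)) {Q : Ideal (𝓞 K')}
    (hQ : Q ∈ IsDedekindDomain.primesOverFinset v.asIdeal (𝓞 K')) :
    ∃ w : HeightOneSpectrum (𝓞 K'), w.asIdeal = Q ∧ PlaceOver K K' v w := by
  haveI : v.asIdeal.IsMaximal := v.isMaximal
  obtain ⟨h1, h2⟩ := (IsDedekindDomain.mem_primesOverFinset_iff v.ne_bot (𝓞 K')).1 hQ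
  haveI := h2
  have hne : Q ≠ ⊥ := Ideal.ne_bot_of_liesOver_of_ne_bot v.ne_bot Q
  exact ⟨⟨Q, h1, hne⟩, rfl, placeOver_of_liesOver812 h2⟩

/-- The set of the places over `v` is finite. -/
theorem finite_placeOver812 (v : HeightOneSpectrum (𝓞 K)) :
    {w : HeightOneSpectrum (𝓞 K') | PlaceOver K K' v w}.Finite := by
  have hinj : Function.Injective
      (fun w : HeightOneSpectrum (𝓞 K') => w.asIdeal) := fun a b h => HeightOneSpectrum.ext h
  have h1 : ((fun w : HeightOneSpectrum (𝓞 K') => w.asIdeal) ⁻¹'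
      (IsDedekindDomain.primesOverFinset v.asIdeal (𝓞 K') : Set (Ideal (𝓞 K')))).Finite :=
    (IsDedekindDomain.primesOverFinset v.asIdeal (𝓞 K')).finite_toSet.preimage hinj.injOn
  refine h1.subset ?_
  intro w hw
  exact (mem_primesOverFinset_iff812 v w).2 hw

/-- Every term of the fundamental identity is positive. -/
theorem one_le_ef812 (v : HeightOneSpectrum (𝓞 K)) {Q : Ideal (𝓞 K')}
    (hQ : Q ∈ IsDedekindDomain.primesOverFinset v.asIdeal (𝓞 K')) :
    1 ≤ v.asIdeal.ramificationIdx' Q * v.asIdeal.inertiaDeg' Q := by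
  haveI : v.asIdeal.IsMaximal := v.isMaximal
  obtain ⟨h1, h2⟩ := (IsDedekindDomain.mem_primesOverFinset_iff v.ne_bot (𝓞 K')).1 hQ
  haveI := h1
  haveI := h2
  refine Right.one_le_mul ?_ ?_
  · exact Nat.pos_iff_ne_zero.mpr
      (Ideal.IsDedekindDomain.ramificationIdx'_ne_zero_of_liesOver Q v.ne_bot)
  · exact Nat.pos_iff_ne_zero.mpr (Ideal.inertiaDeg'_ne_zero v.asIdeal Q)

/-- The fundamental identity. -/
theorem sum_ef812 (v : HeightOneSpectrum (𝓞 K)) :
    ∑ Q ∈ IsDedekindDomain.primesOverFinset v.asIdeal (𝓞 K'),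
      v.asIdeal.ramificationIdx' Q * v.asIdeal.inertiaDeg' Q = Module.finrank K K' := by
  haveI : v.asIdeal.IsMaximal := v.isMaximal
  exact Ideal.sum_ramification_inertia (𝓞 K') K K' v.ne_bot

/-- `e = 1` for a place which is unramified in the sense of the leaf. -/
theorem ramificationIdx_eq_one812 {v : HeightOneSpectrum (𝓞 K)} {w : HeightOneSpectrum (𝓞 K')}
    (h : PlaceOver K K' v w)
    (hx : ∃ x : 𝓞 K, x ∈ v.asIdeal ∧ algebraMap (𝓞 K) (𝓞 K') x ∉ w.asIdeal ^ 2) :
    v.asIdeal.ramificationIdx' w.asIdeal = 1 := by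
  haveI : v.asIdeal.IsMaximal := v.isMaximal
  haveI : w.asIdeal.LiesOver v.asIdeal := liesOver_of_placeOver812 h
  haveI : w.asIdeal.IsPrime := w.isPrime
  have h0 : v.asIdeal.ramificationIdx' w.asIdeal ≠ 0 :=
    Ideal.IsDedekindDomain.ramificationIdx'_ne_zero_of_liesOver w.asIdeal v.ne_bot
  obtain ⟨x, hxv, hxw⟩ := hx
  by_contra hne
  have h2 : 2 ≤ v.asIdeal.ramificationIdx' w.asIdeal := by omega
  have h3 : Ideal.map (algebraMap (𝓞 K) (𝓞 K')) v.asIdeal
      ≤ w.asIdeal ^ v.asIdeal.ramificationIdx' w.asIdeal := Ideal.le_pow_ramificationIdx'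
  exact hxw (Ideal.pow_le_pow_right h2 (h3 (Ideal.mem_map_of_mem _ hxv)))

/-- **The statement of `B981.SS503.PlacesC503 K K'`.** -/
theorem placesCore812 (K K' : Type) [Field K] [NumberField K] [Field K'] [NumberField K']
    [Algebra K K'] :
    ∀ ℓ : ℕ, IsCycExt K K' ℓ → ∀ w : HeightOneSpectrum (𝓞 K'),
    ∃ (v : HeightOneSpectrum (𝓞 K)) (f : ℕ) (P : Finset (HeightOneSpectrum (𝓞 K'))),
      HasResDeg K K' v w f ∧
      (∀ v' : HeightOneSpectrum (𝓞 K), PlaceOver K K' v' w → v' = v) ∧
      (∀ w' : HeightOneSpectrum (𝓞 K'), w' ∈ P ↔ PlaceOver K K' v w') ∧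
      ((∃ x : 𝓞 K, x ∈ v.asIdeal ∧ algebraMap (𝓞 K) (𝓞 K') x ∉ w.asIdeal ^ 2) →
        ((∀ w' : HeightOneSpectrum (𝓞 K'), PlaceOver K K' v w' → w' = w) → f = ℓ) ∧
        ∀ u : ℕ → HeightOneSpectrum (𝓞 K'), (∀ j : ℕ, PlaceOver K K' v (u j)) →
          (∀ j j' : ℕ, j < ℓ → j' < ℓ → u j = u j' → j = j') →
          f = 1 ∧ ∃ j : ℕ, j < ℓ ∧ u j = w) := by
  classical
  intro ℓ hcyc w
  have hw : PlaceOver K K' (underPlace812 K w) w := placeOver_underPlace812 w
  have hwmem : w.asIdeal ∈ IsDedekindDomain.primesOverFinset (underPlace812 K w).asIdeal (𝓞 K') :=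
    (mem_primesOverFinset_iff812 _ w).2 hw
  have hsum := sum_ef812 (K' := K') (underPlace812 K w)
  rw [hcyc.degree] at hsum
  refine ⟨underPlace812 K w, (underPlace812 K w).asIdeal.inertiaDeg' w.asIdeal,
    (finite_placeOver812 (underPlace812 K w)).toFinset, hasResDeg_inertiaDeg812 hw,
    fun v' hv' => eq_underPlace812 hv', fun w' => ?_, fun hx => ⟨fun hone => ?_, fun u hu hinj => ?_⟩⟩
  · rw [Set.Finite.mem_toFinset]
    rfl
  · -- one place
    have hPF : IsDedekindDomain.primesOverFinset (underPlace812 K w).asIdeal (𝓞 K') = {w.asIdeal} := by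
      ext Q
      rw [Finset.mem_singleton]
      constructor
      · intro hQ
        obtain ⟨w', rfl, hw'⟩ := exists_place_of_mem812 _ hQ
        rw [hone w' hw']
      · rintro rfl
        exact hwmem
    rw [hPF, Finset.sum_singleton, ramificationIdx_eq_one812 hw hx, one_mul] at hsum
    exact hsum
  · -- `ℓ` places
    set PF := IsDedekindDomain.primesOverFinset (underPlace812 K w).asIdeal (𝓞 K') with hPFdef
    set U : Finset (Ideal (𝓞 K')) := (Finset.range ℓ).image (fun j => (u j).asIdeal) with hU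
    have hUsub : U ⊆ PF := by
      intro Q hQ
      obtain ⟨j, -, rfl⟩ := Finset.mem_image.1 hQ
      exact (mem_primesOverFinset_iff812 _ (u j)).2 (hu j)
    have hUcard : U.card = ℓ := by
      rw [hU, Finset.card_image_of_injOn, Finset.card_range]
      intro j hj j' hj' h
      exact hinj j j' (Finset.mem_range.1 hj) (Finset.mem_range.1 hj')
        (HeightOneSpectrum.ext h)
    have hge : PF.card ≤ ℓ := by
      calc PF.card = ∑ _Q ∈ PF, 1 := Finset.card_eq_sum_ones PF
        _ ≤ ∑ Q ∈ PF, (underPlace812 K w).asIdeal.ramificationIdx' Q *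
              (underPlace812 K w).asIdeal.inertiaDeg' Q :=
            Finset.sum_le_sum (fun Q hQ => one_le_ef812 _ hQ)
        _ = ℓ := hsum
    have hUPF : U = PF := Finset.eq_of_subset_of_card_le hUsub (by rw [hUcard]; exact hge)
    have hcard : PF.card = ℓ := by rw [← hUPF, hUcard]
    refine ⟨?_, ?_⟩
    · -- `e f = 1` at `w`
      have h1 := Finset.add_sum_erase PF
        (fun Q => (underPlace812 K w).asIdeal.ramificationIdx' Q *
              (underPlace812 K w).asIdeal.inertiaDeg' Q) hwmem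
      have h2 : (PF.erase w.asIdeal).card ≤ ∑ Q ∈ PF.erase w.asIdeal,
          (underPlace812 K w).asIdeal.ramificationIdx' Q *
              (underPlace812 K w).asIdeal.inertiaDeg' Q := by
        calc (PF.erase w.asIdeal).card = ∑ _Q ∈ PF.erase w.asIdeal, 1 :=
              Finset.card_eq_sum_ones _
          _ ≤ _ := Finset.sum_le_sum (fun Q hQ => one_le_ef812 _ (Finset.mem_of_mem_erase hQ))
      have h3 : (PF.erase w.asIdeal).card = ℓ - 1 := by
        rw [Finset.card_erase_of_mem hwmem, hcard]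
      have h4 := one_le_ef812 _ hwmem
      have hℓ : 1 ≤ ℓ := hcyc.prime.one_le
      have h5 : (underPlace812 K w).asIdeal.ramificationIdx' w.asIdeal *
              (underPlace812 K w).asIdeal.inertiaDeg' w.asIdeal = 1 := by
        rw [hsum] at h1
        omega
      exact Nat.eq_one_of_mul_eq_one_left h5
    · have hwU : w.asIdeal ∈ U := by rw [hUPF]; exact hwmem
      obtain ⟨j, hj, hjw⟩ := Finset.mem_image.1 hwU
      exact ⟨j, Finset.mem_range.1 hj, HeightOneSpectrum.ext hjw⟩

end Fermat.Agent.LT.T7.H812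

end
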