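import Mathlib
import Fermat.Agent.LT.T7.H589.StepTSpec
import Fermat.Agent.LT.T7.H812.PlacesCore

/-!
# Row LT, tower T7, leaf ST.1 `ST589.PlaceC589` (helper812, spare of registry row 3001)

OFF-MAIN.  ADDITIVE.  Complete proof, nothing assumed, UNCONDITIONAL.  Target:
`ST589.PlaceC589 K K'` of `T7/H589/StepTSpec.lean` (helper589@2f2879f43, sha256 f2cef127)
VERBATIM.  The proof uses `PlacesCore.lean` (Mathlib + `T7/Spec.lean` only).
-/

set_option autoImplicit false

open IsDedekindDomain NumberField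

noncomputable section

namespace Fermat.Agent.LT.T7.H812

open Fermat.Agent.LT.T7

/-- **LEAF ST.1 = PLACE**, verbatim, unconditional. -/
theorem placeC589_812 (K K' : Type) [Field K] [NumberField K] [Field K'] [NumberField K']
    [Algebra K K'] : Fermat.Agent.LT.T7.ST589.PlaceC589 K K' := by
  refine ⟨fun ℓ _ w => ⟨underPlace812 K w, _, hasResDeg_inertiaDeg812 (placeOver_underPlace812 w)⟩,
    fun 𝔫 v w hvw hdvd => ?_⟩
  rw [Ideal.dvd_iff_le] at hdvd ⊢
  show Ideal.map (algebraMap (𝓞 K) (𝓞 K')) 𝔫 ≤ w.asIdeal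
  rw [Ideal.map_le_iff_le_comap, ← (placeOver_iff_comap812 v w).1 hvw]
  exact hdvd

end Fermat.Agent.LT.T7.H812

end
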