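import Mathlib
import Fermat.Agent.LT.T7.H736.UpS
import Fermat.Agent.LT.T7.H812.Stable

/-!
# Row LT, tower T7, leaf `StableAutC` of the cut of helper736 (helper812)

OFF-MAIN.  ADDITIVE.  Every proof is complete, nothing assumed.  Target: `SU736.StableAutC K K'`
of `T7/H736/UpS.lean` (helper736@ef7c01058) VERBATIM:

    stableAutC812 (K K') : Fermat.Agent.LT.T7.SU736.StableAutC K K'

i.e. `IsL2Data ℓ Φ Dt → Dt.IsStable → T5.AutPreserves Dt.s Dt.𝔑₀ Dt.R'.μ Dt.R'.r`.

Proof.  All the fields of `T5.AutPreserves` except `level` do not mention the level: they are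
those of `(IsL2Data.comp 1 _).aut`.  The field `level` at the base level is
`level_of_level812` (`T7/H812/Stable.lean`: colon ideal on the stability of the deeper level).

Also the general form `autPreserves_of_compData812`, for any comparison datum `D` and any level
extended from `K` which contains `D.𝔑` (it serves the step `F / ℚ` as well: `K = ℚ`).
-/

set_option autoImplicit false
set_option linter.unusedSectionVars false

open AutomorphicForm IsDedekindDomain NumberField MeasureTheory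

noncomputable section

namespace Fermat.Agent.LT.T7.H812

open Fermat.Agent.LT.H556 Fermat.Agent.LT.H556.A0 Fermat.Agent.LT.T7

attribute [local instance] Fermat.Agent.LT.T5.instMeasurableSpaceG

section OneField

variable {K : Type} [Field K] [NumberField K]

/-- `T5.AutPreserves` at the level `𝔑₀` from `T5.AutPreserves` at a deeper level `𝔑₁ ≠ 0`, both
levels stable under `σ`. -/
theorem autPreserves_of_level812 (s : T5.AdelicAut K) (𝔑₀ 𝔑₁ : Ideal (𝓞 K))
    (μ : Measure (G K)) (r : G K) (hle : 𝔑₁ ≤ 𝔑₀) (hne : ∃ z ∈ 𝔑₁, z ≠ 0)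
    (h₀ : ∀ z : 𝓞 K, z ∈ 𝔑₀ ↔ RingOfIntegers.mapRingEquiv s.σ z ∈ 𝔑₀)
    (h₁ : ∀ z : 𝓞 K, z ∈ 𝔑₁ ↔ RingOfIntegers.mapRingEquiv s.σ z ∈ 𝔑₁)
    (h : T5.AutPreserves s 𝔑₁ μ r) : T5.AutPreserves s 𝔑₀ μ r where
  left_inverse := h.left_inverse
  right_inverse := h.right_inverse
  rat := h.rat
  cont := h.cont
  measure := h.measure
  ray := h.ray
  slab := h.slab
  level := level_of_level812 s 𝔑₀ 𝔑₁ hle hne h₀ h₁ h.level
  arch := h.arch

end OneField

section TwoFields

variable {K K' : Type} [Field K] [NumberField K] [Field K'] [NumberField K'] [Algebra K K']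

/-- **General form.**  For a comparison datum `D` and an ideal `𝔫₀` of `K` whose extension
contains the level `D.𝔑`, the automorphism preserves the frame at the level `𝔫₀ 𝒪_{K'}`. -/
theorem autPreserves_of_compData812 (D : CompData K K') (hD : IsCompData D)
    (𝔫₀ : Ideal (𝓞 K)) (hle : D.𝔑 ≤ Ideal.map (algebraMap (𝓞 K) (𝓞 K')) 𝔫₀) :
    T5.AutPreserves D.s (Ideal.map (algebraMap (𝓞 K) (𝓞 K')) 𝔫₀) D.R'.μ D.R'.r := by
  -- `σ` fixes the image of `K`
  have hσ : ∀ y : K, D.s.σ (algebraMap K K' y) = algebraMap K K' y := by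
    intro y
    have h1 : algebraMap K K' y ∈ D.k := (hD.base _).2 ⟨y, rfl⟩
    exact (hD.cyc.fixed _).1 h1
  -- the deeper level is not zero
  have hne : ∃ z ∈ D.𝔑, z ≠ 0 := by
    obtain ⟨y, hy, hy0⟩ := Submodule.exists_mem_ne_zero_of_ne_bot hD.level_ne
    refine ⟨algebraMap (𝓞 K) (𝓞 K') y, ?_, ?_⟩
    · rw [hD.level]
      exact Ideal.mem_map_of_mem _ hy
    · intro h0
      exact hy0 (RingOfIntegers.algebraMap.injective K K' (h0.trans (map_zero _).symm))
  have h₁ : ∀ z : 𝓞 K', z ∈ D.𝔑 ↔ RingOfIntegers.mapRingEquiv D.s.σ z ∈ D.𝔑 := by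
    intro z
    rw [hD.level]
    exact map_mem_iff_of_fix812 D.s.σ hσ D.𝔫 z
  exact autPreserves_of_level812 D.s _ D.𝔑 D.R'.μ D.R'.r hle hne
    (fun z => map_mem_iff_of_fix812 D.s.σ hσ 𝔫₀ z) h₁ hD.aut

/-- **LEAF STABLE-AUT** of the cut of helper736. -/
theorem stableAutC812 (K K' : Type) [Field K] [NumberField K] [Field K'] [NumberField K']
    [Algebra K K'] : SU736.StableAutC K K' := by
  intro ℓ Φ Dt hDt hst
  have hbad : Dt.IsBad 1 := isBad_one812 Dt
  obtain ⟨𝔫₀, -, h𝔑₀⟩ := hst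
  have hle : (Dt.comp 1).𝔑 ≤ Ideal.map (algebraMap (𝓞 K) (𝓞 K')) 𝔫₀ := by
    rw [← h𝔑₀]
    exact hDt.level_g 1 hbad
  have h := autPreserves_of_compData812 (Dt.comp 1) (hDt.comp 1 hbad) 𝔫₀ hle
  show T5.AutPreserves Dt.s Dt.𝔑₀ Dt.R'.μ Dt.R'.r
  rw [h𝔑₀]
  exact h

end TwoFields

end Fermat.Agent.LT.T7.H812

end
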